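/-
GATE-N / S48 J1-port, P3 (EIG twin), leaf S48-P3-EXC, character layer (helper94): the Eisenstein
series `EchiG Γ χ k` attached to a unitary character `χ` of an ARBITRARY subgroup `Γ ≤ SL(2,ℤ)`,
trivial on parabolic elements (`trace² = 4`).  Γ-generic twin of `GJ/J2/TwistedEisChar.lean`
(stated there for `Γ₀(N)`); the analytic engine `GJ/J2/TwistedEis.lean` is Γ-free and imported.

Hypotheses on `Γ` (structure `LevelHyp Γ N`):
* `conj_mem` : `g T^N g⁻¹ ∈ Γ` for all `g ∈ SL(2,ℤ)` (e.g. `Γ(N) ≤ Γ`);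
* `noNeg`    : no element of `Γ` has bottom row `(0, -1)` (e.g. `Γ₁(M)`, `M ≥ 3`).
Under `noNeg` the series tends to `1` at `i∞` for every weight `k ≥ 3` (no parity condition).
-/
import Fermat.Agent.GJ.J2.TwistedEisChar

set_option autoImplicit false
set_option linter.unusedSectionVars false

open Complex UpperHalfPlane Set Filter Topology Matrix ModularForm EisensteinSeries
  CongruenceSubgroup ModularGroup
open scoped MatrixGroups Manifold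

namespace Fermat.Agent.DS.P3.TwEisG

open Fermat.Agent.GJ.TwEis (twE twE_slash vecMulEquiv botRow botRow_mul botRow_one
  trace_eq_two_of_botRow eq_one_or_neg_one_of_botRow limE tendsto_twE mdifferentiable_twE
  mdifferentiable_twE_slash isBoundedAtImInfty_twE_slash trace_conj_T_zpow slash_T_zpow_apply)

noncomputable section

/-! ### the hypotheses on `Γ` -/

/-- `Γ` has level `N` (all conjugates of `T^N` lie in `Γ`) and contains no element with bottom row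
`(0, -1)`. -/
structure LevelHyp (Γ : Subgroup SL(2, ℤ)) (N : ℕ) : Prop where
  conj_mem : ∀ g : SL(2, ℤ), g * T ^ (N : ℤ) * g⁻¹ ∈ Γ
  noNeg : ∀ γ ∈ Γ, (γ : Matrix (Fin 2) (Fin 2) ℤ) 1 0 = 0 → (γ : Matrix (Fin 2) (Fin 2) ℤ) 1 1 = 1

lemma LevelHyp.conj_mul_mem {Γ : Subgroup SL(2, ℤ)} {N : ℕ} (hΓ : LevelHyp Γ N) (g : SL(2, ℤ))
    (m : ℤ) : g * T ^ ((N : ℤ) * m) * g⁻¹ ∈ Γ := by
  have h : g * T ^ ((N : ℤ) * m) * g⁻¹ = (g * T ^ (N : ℤ) * g⁻¹) ^ m := by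
    rw [_root_.zpow_mul, ← conj_zpow]
  rw [h]
  exact Γ.zpow_mem (hΓ.conj_mem g) m

/-- `Γ(N) ≤ Γ` gives the first half of `LevelHyp`. -/
lemma conj_T_zpow_mem_of_Gamma_le {Γ : Subgroup SL(2, ℤ)} {N : ℕ}
    (hle : CongruenceSubgroup.Gamma N ≤ Γ)
    (g : SL(2, ℤ)) : g * T ^ (N : ℤ) * g⁻¹ ∈ Γ := by
  apply hle
  have hT : T ^ (N : ℤ) ∈ CongruenceSubgroup.Gamma N := by
    rw [CongruenceSubgroup.Gamma_mem, coe_T_zpow]
    simp
  exact (CongruenceSubgroup.Gamma_normal (N := N)).conj_mem _ hT g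

/-- `Γ₁(M)`, `M ≥ 3`, satisfies `LevelHyp` at level `M`. -/
theorem levelHyp_Gamma1 (M : ℕ) (hM : 3 ≤ M) : LevelHyp (Gamma1 M) M where
  conj_mem g := by
    refine conj_T_zpow_mem_of_Gamma_le (fun A hA => ?_) g
    rw [CongruenceSubgroup.Gamma_mem] at hA
    rw [Gamma1_mem]
    exact ⟨hA.1, hA.2.2.2, hA.2.2.1⟩
  noNeg γ hγ h10 := by
    rw [Gamma1_mem] at hγ
    obtain ⟨ha, hd, -⟩ := hγ
    have hdet := γ.det_coe
    rw [Matrix.det_fin_two, h10, mul_zero, sub_zero] at hdet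
    rcases Int.eq_one_or_neg_one_of_mul_eq_one' hdet with h | h
    · exact h.2
    · exfalso
      rw [h.2] at hd
      have h2 : ((2 : ℤ) : ZMod M) = 0 := by
        have : ((-1 : ℤ) : ZMod M) = 1 := hd
        push_cast at this ⊢
        linear_combination -this
      rw [ZMod.intCast_zmod_eq_zero_iff_dvd] at h2
      have := Int.le_of_dvd (by norm_num) h2
      omega

/-! ### parabolic characters -/

section character

variable {Γ : Subgroup SL(2, ℤ)} (χ : ↥Γ →* ℂˣ)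

variable (Γ) in
/-- the hypothesis "`χ` is trivial on parabolic elements" in the prelude's `trace² = 4` shape. -/
def IsParabolicCharG : Prop :=
  ∀ γ : ↥Γ, ((γ : SL(2, ℤ)) : Matrix (Fin 2) (Fin 2) ℤ).trace ^ 2 = 4 → χ γ = 1

variable {χ}

lemma IsParabolicCharG.eq_of_botRow_eq (hpar : IsParabolicCharG Γ χ) {γ γ' : ↥Γ}
    (h : botRow (γ : SL(2, ℤ)) = botRow (γ' : SL(2, ℤ))) : χ γ = χ γ' := by
  have hδ : botRow (((γ' * γ⁻¹ : ↥Γ) : SL(2, ℤ))) = ![0, 1] := by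
    rw [Subgroup.coe_mul, botRow_mul, ← h, ← botRow_mul, Subgroup.coe_inv, mul_inv_cancel,
      botRow_one]
  have h1 : χ (γ' * γ⁻¹) = 1 := by
    apply hpar
    rw [trace_eq_two_of_botRow _ hδ]
    norm_num
  rw [map_mul, map_inv, mul_inv_eq_one] at h1
  exact h1.symm

lemma isParabolicCharG_one : IsParabolicCharG Γ (1 : ↥Γ →* ℂˣ) := fun _ _ => rfl

lemma hunitG_one : ∀ γ : ↥Γ, ‖(((1 : ↥Γ →* ℂˣ) γ : ℂˣ) : ℂ)‖ = 1 := by
  intro γ; simp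

variable (Γ χ)

open Classical in
/-- the coefficient function on `ℤ²` attached to `χ`: `(χ γ)⁻¹` on the bottom row of `γ ∈ Γ`,
zero elsewhere. -/
def botCoeffG (v : Fin 2 → ℤ) : ℂ :=
  if h : ∃ γ : ↥Γ, botRow (γ : SL(2, ℤ)) = v then ((χ h.choose : ℂˣ) : ℂ)⁻¹ else 0

variable {Γ χ}

lemma botCoeffG_botRow (hpar : IsParabolicCharG Γ χ) (γ : ↥Γ) :
    botCoeffG Γ χ (botRow (γ : SL(2, ℤ))) = ((χ γ : ℂˣ) : ℂ)⁻¹ := by
  have h : ∃ γ' : ↥Γ, botRow (γ' : SL(2, ℤ)) = botRow (γ : SL(2, ℤ)) := ⟨γ, rfl⟩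
  rw [botCoeffG, dif_pos h, hpar.eq_of_botRow_eq h.choose_spec]

lemma botCoeffG_of_not (v : Fin 2 → ℤ)
    (h : ¬ ∃ γ : ↥Γ, botRow (γ : SL(2, ℤ)) = v) : botCoeffG Γ χ v = 0 := by
  rw [botCoeffG, dif_neg h]

lemma norm_botCoeffG_le (hunit : ∀ γ, ‖((χ γ : ℂˣ) : ℂ)‖ = 1) (v : Fin 2 → ℤ) :
    ‖botCoeffG Γ χ v‖ ≤ 1 := by
  unfold botCoeffG
  split_ifs with h
  · rw [norm_inv, hunit, inv_one]
  · simp

/-- the equivariance of the coefficient function. -/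
lemma botCoeffG_vecMul_inv (hpar : IsParabolicCharG Γ χ) (γ : ↥Γ) (v : Fin 2 → ℤ) :
    botCoeffG Γ χ (v ᵥ* (((γ : SL(2, ℤ))⁻¹ : SL(2, ℤ)) : Matrix (Fin 2) (Fin 2) ℤ)) =
      ((χ γ : ℂˣ) : ℂ) * botCoeffG Γ χ v := by
  by_cases h : ∃ δ : ↥Γ, botRow (δ : SL(2, ℤ)) = v
  · obtain ⟨δ, rfl⟩ := h
    have e : botRow (δ : SL(2, ℤ)) ᵥ* (((γ : SL(2, ℤ))⁻¹ : SL(2, ℤ)) : Matrix (Fin 2) (Fin 2) ℤ)
        = botRow (((δ * γ⁻¹ : ↥Γ) : SL(2, ℤ))) := by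
      rw [Subgroup.coe_mul, Subgroup.coe_inv, botRow_mul]
    rw [e, botCoeffG_botRow hpar, botCoeffG_botRow hpar, map_mul, map_inv]
    have hne : ((χ γ : ℂˣ) : ℂ) ≠ 0 := Units.ne_zero _
    have hne' : ((χ δ : ℂˣ) : ℂ) ≠ 0 := Units.ne_zero _
    push_cast
    field_simp
  · have h' : ¬ ∃ δ : ↥Γ, botRow (δ : SL(2, ℤ)) =
        v ᵥ* (((γ : SL(2, ℤ))⁻¹ : SL(2, ℤ)) : Matrix (Fin 2) (Fin 2) ℤ) := by
      rintro ⟨δ, hδ⟩
      apply h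
      refine ⟨δ * γ, ?_⟩
      rw [Subgroup.coe_mul, botRow_mul, hδ]
      exact (vecMulEquiv (γ : SL(2, ℤ))).right_inv v
    rw [botCoeffG_of_not _ h, botCoeffG_of_not _ h', mul_zero]

variable (Γ χ)

/-- the Eisenstein series of weight `k` with character `χ` on `Γ` (tends to `1` at `i∞` when `Γ`
has no element with bottom row `(0,-1)`). -/
def EchiG (k : ℤ) : ℍ → ℂ := twE (botCoeffG Γ χ) k

variable {Γ χ}

/-- (C1) the transformation law under `Γ`. -/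
theorem EchiG_slash (hpar : IsParabolicCharG Γ χ) (k : ℤ) (γ : ↥Γ) :
    EchiG Γ χ k ∣[k] (γ : SL(2, ℤ)) = ((χ γ : ℂˣ) : ℂ) • EchiG Γ χ k := by
  unfold EchiG
  rw [twE_slash]
  have : (fun v => botCoeffG Γ χ (v ᵥ* (((γ : SL(2, ℤ))⁻¹ : SL(2, ℤ)) :
      Matrix (Fin 2) (Fin 2) ℤ))) = fun v => ((χ γ : ℂˣ) : ℂ) * botCoeffG Γ χ v :=
    funext fun v => botCoeffG_vecMul_inv hpar γ v
  rw [this]
  ext z
  simp only [Pi.smul_apply, smul_eq_mul, twE, mul_assoc, tsum_mul_left]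

/-- pointwise form of (C1). -/
theorem EchiG_smul (hpar : IsParabolicCharG Γ χ) (k : ℤ) (γ : ↥Γ) (z : ℍ) :
    EchiG Γ χ k ((γ : SL(2, ℤ)) • z) =
      ((χ γ : ℂˣ) : ℂ) * denom (γ : SL(2, ℤ)) z ^ k * EchiG Γ χ k z := by
  have h := congrFun (EchiG_slash hpar k γ) z
  rw [SL_slash_apply, Pi.smul_apply, smul_eq_mul, _root_.zpow_neg,
    mul_inv_eq_iff_eq_mul₀ (zpow_ne_zero _ <| denom_ne_zero _ z)] at h
  rw [h]
  ring

theorem mdifferentiable_EchiG (hunit : ∀ γ, ‖((χ γ : ℂˣ) : ℂ)‖ = 1) {k : ℤ} (hk : 3 ≤ k) :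
    MDifferentiable 𝓘(ℂ) 𝓘(ℂ) (EchiG Γ χ k) :=
  mdifferentiable_twE (norm_botCoeffG_le hunit) hk

lemma limE_botCoeffG (hpar : IsParabolicCharG Γ χ)
    (hneg : ∀ γ ∈ Γ, (γ : Matrix (Fin 2) (Fin 2) ℤ) 1 0 = 0 →
      (γ : Matrix (Fin 2) (Fin 2) ℤ) 1 1 = 1) (k : ℤ) :
    limE (botCoeffG Γ χ) k = 1 := by
  unfold limE
  have hsupp : ∀ d : ℤ, d ∉ ({1} : Finset ℤ) →
      botCoeffG Γ χ ![0, d] * (d : ℂ) ^ (-k) = 0 := by
    intro d hd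
    rw [botCoeffG_of_not, zero_mul]
    rintro ⟨γ, hγ⟩
    apply hd
    have h10 : ((γ : SL(2, ℤ)) : Matrix (Fin 2) (Fin 2) ℤ) 1 0 = 0 := by
      have := congrFun hγ 0; simpa [botRow] using this
    have h11 : ((γ : SL(2, ℤ)) : Matrix (Fin 2) (Fin 2) ℤ) 1 1 = d := by
      have := congrFun hγ 1; simpa [botRow] using this
    have := hneg _ γ.2 h10
    rw [h11] at this
    simp [this]
  rw [tsum_eq_sum hsupp, Finset.sum_singleton]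
  have h1 : botCoeffG Γ χ ![0, 1] = 1 := by
    have := botCoeffG_botRow hpar (1 : ↥Γ)
    rw [OneMemClass.coe_one, botRow_one, map_one] at this
    simpa using this
  rw [h1]
  simp

/-- (C2) `EchiG Γ χ k → 1` at `i∞` for every `k ≥ 3`. -/
theorem tendsto_EchiG {N : ℕ} (hΓ : LevelHyp Γ N) (hpar : IsParabolicCharG Γ χ)
    (hunit : ∀ γ, ‖((χ γ : ℂˣ) : ℂ)‖ = 1) {k : ℤ} (hk : 3 ≤ k) :
    Tendsto (EchiG Γ χ k) atImInfty (𝓝 1) := by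
  have h := tendsto_twE (norm_botCoeffG_le hunit) hk
  rwa [limE_botCoeffG hpar hΓ.noNeg k] at h

theorem EchiG_ne_zero {N : ℕ} (hΓ : LevelHyp Γ N) (hpar : IsParabolicCharG Γ χ)
    (hunit : ∀ γ, ‖((χ γ : ℂˣ) : ℂ)‖ = 1) {k : ℤ} (hk : 3 ≤ k) : EchiG Γ χ k ≠ 0 := by
  intro h0
  have h := tendsto_EchiG hΓ hpar hunit hk
  rw [h0] at h
  have h1 : Tendsto (0 : ℍ → ℂ) atImInfty (𝓝 0) := tendsto_const_nhds
  exact one_ne_zero (tendsto_nhds_unique h h1)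

/-- (C3a) every slash translate is holomorphic. -/
theorem mdifferentiable_EchiG_slash (hunit : ∀ γ, ‖((χ γ : ℂˣ) : ℂ)‖ = 1) {k : ℤ} (hk : 3 ≤ k)
    (g : SL(2, ℤ)) : MDifferentiable 𝓘(ℂ) 𝓘(ℂ) (EchiG Γ χ k ∣[k] g) :=
  mdifferentiable_twE_slash (norm_botCoeffG_le hunit) hk g

/-- (C3b) every slash translate is bounded at `i∞`. -/
theorem isBoundedAtImInfty_EchiG_slash (hunit : ∀ γ, ‖((χ γ : ℂˣ) : ℂ)‖ = 1) {k : ℤ}
    (hk : 3 ≤ k) (g : SL(2, ℤ)) : IsBoundedAtImInfty (EchiG Γ χ k ∣[k] g) :=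
  isBoundedAtImInfty_twE_slash (norm_botCoeffG_le hunit) hk g

/-- (C3c) if `g T^w g⁻¹ ∈ Γ` then `EchiG ∣[k] g` is invariant under `T^w`. -/
theorem EchiG_slash_slash_T_zpow (hpar : IsParabolicCharG Γ χ) (k : ℤ) (g : SL(2, ℤ)) (w : ℤ)
    (hmem : g * T ^ w * g⁻¹ ∈ Γ) :
    (EchiG Γ χ k ∣[k] g) ∣[k] (T ^ w : SL(2, ℤ)) = EchiG Γ χ k ∣[k] g := by
  have h1 : χ ⟨g * T ^ w * g⁻¹, hmem⟩ = 1 := by
    apply hpar
    show ((g * T ^ w * g⁻¹ : SL(2, ℤ)) : Matrix (Fin 2) (Fin 2) ℤ).trace ^ 2 = 4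
    rw [trace_conj_T_zpow]
    norm_num
  have h2 : g * T ^ w = (g * T ^ w * g⁻¹) * g := by group
  rw [← SlashAction.slash_mul, h2, SlashAction.slash_mul]
  have h3 := EchiG_slash hpar k ⟨g * T ^ w * g⁻¹, hmem⟩
  simp only [h1, Units.val_one, one_smul] at h3
  rw [h3]

/-- (C3d') `EchiG ∣[k] g` is `w`-periodic as soon as `g T^w g⁻¹ ∈ Γ` (`w` = cusp width). -/
theorem EchiG_slash_vadd_of_mem (hpar : IsParabolicCharG Γ χ) (k : ℤ) (g : SL(2, ℤ)) (w : ℤ)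
    (hmem : g * T ^ w * g⁻¹ ∈ Γ) (z : ℍ) :
    (EchiG Γ χ k ∣[k] g) ((w : ℝ) +ᵥ z) = (EchiG Γ χ k ∣[k] g) z := by
  have h := congrFun (EchiG_slash_slash_T_zpow hpar k g w hmem) z
  rwa [slash_T_zpow_apply] at h

/-- (C3d) `EchiG ∣[k] g` is periodic of period `N` (for every `g ∈ SL(2,ℤ)`). -/
theorem EchiG_slash_vadd {N : ℕ} (hΓ : LevelHyp Γ N) (hpar : IsParabolicCharG Γ χ) (k : ℤ)
    (g : SL(2, ℤ)) (z : ℍ) :
    (EchiG Γ χ k ∣[k] g) ((N : ℝ) +ᵥ z) = (EchiG Γ χ k ∣[k] g) z := by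
  have h := EchiG_slash_vadd_of_mem hpar k g (N : ℤ) (hΓ.conj_mem g) z
  simpa using h

end character

end

end Fermat.Agent.DS.P3.TwEisG
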