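/-
GATE-N / S48 J1-port, P3 (EIG twin), leaf S48-P3-EXC, ratio layer (helper94): the meromorphic
function `hChiG = E_{k,χ} / E_{k,1}` in T24's `Mer = Frac(Hol)` for an arbitrary subgroup
`Γ ≤ SL(2,ℤ)` satisfying `LevelHyp Γ N`, its multiplier `χ`, its slash translates at the cusps, and
the bridge to the Γ-generic Kummer core: for a parabolic `φ : Γ → ℤ/p` and a `p`-th root of unity
`ζ`, `hPhiG` has multiplier `ζ^φ` (`KumCoreG.HasMultG`).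
Γ-generic twin of `GJ/J2/TwistedEisRatio.lean` + `GJ/J2/TwistedEisKum.lean`.
-/
import Fermat.Agent.DS.P3.TwEisG.Char
import Fermat.Agent.DS.P3.KumCoreG
import Fermat.Agent.GJ.J2.TwistedEisRatio

set_option autoImplicit false
set_option linter.unusedSectionVars false

open Complex UpperHalfPlane Set Filter Topology Matrix ModularForm EisensteinSeries
  CongruenceSubgroup ModularGroup
open scoped MatrixGroups Manifold
open Fermat.Agent.S24_helper82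

namespace Fermat.Agent.DS.P3.TwEisG

open Fermat.Agent.GJ.TwEis (denHol denHol_ne_zero slashHol coe_slashHol
  compSL_eq_denHol_mul_slashHol slashHol_ne_zero pow_slash isBoundedAtImInfty_pow zetaHom
  zetaHom_intCast)
open Fermat.Agent.DS.P3.KumCoreG

noncomputable section

section character

variable {Γ : Subgroup SL(2, ℤ)} {N : ℕ} {χ : ↥Γ →* ℂˣ}

/-- `E_{k,χ}` as an element of `Hol`. -/
def EchiHolG (hunit : ∀ γ, ‖((χ γ : ℂˣ) : ℂ)‖ = 1) {k : ℤ} (hk : 3 ≤ k) : Hol :=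
  ⟨EchiG Γ χ k, mdifferentiable_EchiG hunit hk⟩

lemma coe_EchiHolG (hunit : ∀ γ, ‖((χ γ : ℂˣ) : ℂ)‖ = 1) {k : ℤ} (hk : 3 ≤ k) :
    (EchiHolG hunit hk : ℍ → ℂ) = EchiG Γ χ k := rfl

lemma EchiHolG_ne_zero (hΓ : LevelHyp Γ N) (hpar : IsParabolicCharG Γ χ)
    (hunit : ∀ γ, ‖((χ γ : ℂˣ) : ℂ)‖ = 1) {k : ℤ} (hk : 3 ≤ k) : EchiHolG hunit hk ≠ 0 := by
  intro h
  apply EchiG_ne_zero hΓ hpar hunit hk
  rw [← coe_EchiHolG hunit hk, h]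
  rfl

/-- transformation law in `Hol`. -/
lemma compSL_EchiHolG (hpar : IsParabolicCharG Γ χ) (hunit : ∀ γ, ‖((χ γ : ℂˣ) : ℂ)‖ = 1)
    {k : ℤ} (hk : 3 ≤ k) (γ : ↥Γ) :
    compSL (γ : SL(2, ℤ)) (EchiHolG hunit hk) =
      algebraMap ℂ Hol ((χ γ : ℂˣ) : ℂ) * denHol (γ : SL(2, ℤ)) k * EchiHolG hunit hk := by
  apply Subtype.ext
  funext z
  exact EchiG_smul hpar k γ z

/-- the ratio `h_χ = E_{k,χ} / E_{k,1}` as an element of `Mer`. -/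
def hChiG (hunit : ∀ γ, ‖((χ γ : ℂˣ) : ℂ)‖ = 1) {k : ℤ} (hk : 3 ≤ k) : Mer :=
  algebraMap Hol Mer (EchiHolG hunit hk) /
    algebraMap Hol Mer (EchiHolG (χ := (1 : ↥Γ →* ℂˣ)) hunitG_one hk)

lemma hChiG_ne_zero (hΓ : LevelHyp Γ N) (hpar : IsParabolicCharG Γ χ)
    (hunit : ∀ γ, ‖((χ γ : ℂˣ) : ℂ)‖ = 1) {k : ℤ} (hk : 3 ≤ k) : hChiG hunit hk ≠ 0 := by
  unfold hChiG
  exact div_ne_zero (algebraMap_ne_zero (EchiHolG_ne_zero hΓ hpar hunit hk))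
    (algebraMap_ne_zero (EchiHolG_ne_zero hΓ isParabolicCharG_one hunitG_one hk))

/-- (H1) the multiplier of `h_χ` is `χ`. -/
theorem compM_hChiG (hΓ : LevelHyp Γ N) (hpar : IsParabolicCharG Γ χ)
    (hunit : ∀ γ, ‖((χ γ : ℂˣ) : ℂ)‖ = 1) {k : ℤ} (hk : 3 ≤ k) (γ : ↥Γ) :
    compM (γ : SL(2, ℤ)) (hChiG hunit hk) =
      algebraMap ℂ Mer ((χ γ : ℂˣ) : ℂ) * hChiG hunit hk := by
  unfold hChiG
  rw [compM_div, compSL_EchiHolG hpar hunit hk γ,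
    compSL_EchiHolG isParabolicCharG_one hunitG_one hk γ]
  have h1 : algebraMap Hol Mer (denHol (γ : SL(2, ℤ)) k) ≠ 0 :=
    algebraMap_ne_zero (denHol_ne_zero _ _)
  have h2 : algebraMap Hol Mer (EchiHolG (χ := (1 : ↥Γ →* ℂˣ)) hunitG_one hk) ≠ 0 :=
    algebraMap_ne_zero (EchiHolG_ne_zero hΓ isParabolicCharG_one hunitG_one hk)
  simp only [map_mul, MonoidHom.one_apply, Units.val_one, map_one, one_mul]
  rw [← IsScalarTower.algebraMap_apply ℂ Hol Mer]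
  field_simp

/-- (H2) `h_χ^p` is `Γ`-invariant when `χ^p = 1`. -/
theorem compM_hChiG_pow (hΓ : LevelHyp Γ N) (hpar : IsParabolicCharG Γ χ)
    (hunit : ∀ γ, ‖((χ γ : ℂˣ) : ℂ)‖ = 1) {k : ℤ} (hk : 3 ≤ k) (p : ℕ)
    (hχp : ∀ γ, χ γ ^ p = 1) (γ : ↥Γ) :
    compM (γ : SL(2, ℤ)) (hChiG hunit hk ^ p) = hChiG hunit hk ^ p := by
  rw [map_pow, compM_hChiG hΓ hpar hunit hk, mul_pow, ← map_pow]
  have : (((χ γ : ℂˣ) : ℂ)) ^ p = 1 := by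
    have := congrArg (fun u : ℂˣ => (u : ℂ)) (hχp γ)
    simpa using this
  rw [this, map_one, one_mul]

/-- (H3) at any cusp: `h_χ ∘ g` is the ratio of the slash translates. -/
theorem compM_hChiG_eq_slash (hunit : ∀ γ, ‖((χ γ : ℂˣ) : ℂ)‖ = 1)
    {k : ℤ} (hk : 3 ≤ k) (g : SL(2, ℤ)) :
    compM g (hChiG hunit hk) =
      algebraMap Hol Mer (slashHol (EchiHolG hunit hk) k g) /
        algebraMap Hol Mer
          (slashHol (EchiHolG (χ := (1 : ↥Γ →* ℂˣ)) hunitG_one hk) k g) := by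
  unfold hChiG
  rw [compM_div, compSL_eq_denHol_mul_slashHol _ k g, compSL_eq_denHol_mul_slashHol _ k g,
    map_mul, map_mul]
  have h1 : algebraMap Hol Mer (denHol g k) ≠ 0 := algebraMap_ne_zero (denHol_ne_zero _ _)
  rw [mul_div_mul_left _ _ h1]

/-- (H4) at every cusp the numerator of `h_χ ∘ g` is `N`-periodic and bounded at `i∞`. -/
theorem slashHol_EchiHolG_vadd (hΓ : LevelHyp Γ N) (hpar : IsParabolicCharG Γ χ)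
    (hunit : ∀ γ, ‖((χ γ : ℂˣ) : ℂ)‖ = 1) {k : ℤ} (hk : 3 ≤ k) (g : SL(2, ℤ)) (z : ℍ) :
    (slashHol (EchiHolG hunit hk) k g : ℍ → ℂ) ((N : ℝ) +ᵥ z) =
      (slashHol (EchiHolG hunit hk) k g : ℍ → ℂ) z :=
  EchiG_slash_vadd hΓ hpar k g z

/-- (H4') `w`-periodic whenever `g T^w g⁻¹ ∈ Γ`. -/
theorem slashHol_EchiHolG_vadd_of_mem (hpar : IsParabolicCharG Γ χ)
    (hunit : ∀ γ, ‖((χ γ : ℂˣ) : ℂ)‖ = 1) {k : ℤ} (hk : 3 ≤ k) (g : SL(2, ℤ)) (w : ℤ)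
    (hmem : g * T ^ w * g⁻¹ ∈ Γ) (z : ℍ) :
    (slashHol (EchiHolG hunit hk) k g : ℍ → ℂ) ((w : ℝ) +ᵥ z) =
      (slashHol (EchiHolG hunit hk) k g : ℍ → ℂ) z :=
  EchiG_slash_vadd_of_mem hpar k g w hmem z

theorem isBoundedAtImInfty_slashHol_EchiHolG (hunit : ∀ γ, ‖((χ γ : ℂˣ) : ℂ)‖ = 1)
    {k : ℤ} (hk : 3 ≤ k) (g : SL(2, ℤ)) :
    IsBoundedAtImInfty (slashHol (EchiHolG hunit hk) k g : ℍ → ℂ) :=
  isBoundedAtImInfty_EchiG_slash hunit hk g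

lemma slashHol_EchiHolG_ne_zero (hΓ : LevelHyp Γ N) (hpar : IsParabolicCharG Γ χ)
    (hunit : ∀ γ, ‖((χ γ : ℂˣ) : ℂ)‖ = 1) {k : ℤ} (hk : 3 ≤ k) (g : SL(2, ℤ)) :
    slashHol (EchiHolG hunit hk) k g ≠ 0 :=
  slashHol_ne_zero (EchiHolG_ne_zero hΓ hpar hunit hk) k g

end character

section wrappers

variable {Γ : Subgroup SL(2, ℤ)}

/-- a `μ_p`-valued character as a `ℂˣ`-valued one. -/
def ofRootsG (p : ℕ) (χ' : ↥Γ →* rootsOfUnity p ℂ) : ↥Γ →* ℂˣ :=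
  (rootsOfUnity p ℂ).subtype.comp χ'

lemma ofRootsG_apply (p : ℕ) (χ' : ↥Γ →* rootsOfUnity p ℂ) (γ : ↥Γ) :
    ofRootsG p χ' γ = ((χ' γ : rootsOfUnity p ℂ) : ℂˣ) := rfl

lemma ofRootsG_pow (p : ℕ) (χ' : ↥Γ →* rootsOfUnity p ℂ) (γ : ↥Γ) :
    ofRootsG p χ' γ ^ p = 1 := by
  rw [ofRootsG_apply]
  exact (_root_.mem_rootsOfUnity p _).mp (χ' γ).2

lemma ofRootsG_unit (p : ℕ) [NeZero p] (χ' : ↥Γ →* rootsOfUnity p ℂ)
    (γ : ↥Γ) : ‖((ofRootsG p χ' γ : ℂˣ) : ℂ)‖ = 1 := by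
  have h := congrArg (fun u : ℂˣ => (u : ℂ)) (ofRootsG_pow p χ' γ)
  simp only [Units.val_pow_eq_pow_val, Units.val_one] at h
  exact Complex.norm_eq_one_of_pow_eq_one h (NeZero.ne p)

lemma ofRootsG_isParabolicCharG (p : ℕ) (χ' : ↥Γ →* rootsOfUnity p ℂ)
    (h : ∀ γ : ↥Γ,
      ((γ : SL(2, ℤ)) : Matrix (Fin 2) (Fin 2) ℤ).trace ^ 2 = 4 → χ' γ = 1) :
    IsParabolicCharG Γ (ofRootsG p χ') := by
  intro γ hγ
  rw [ofRootsG_apply, h γ hγ]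
  rfl

/-- the `μ_p`-valued character `γ ↦ ζ ^ φ(γ)` attached to an additive `ZMod p`-valued
homomorphism and a `p`-th root of unity `ζ`. -/
def charOfHomG (p : ℕ) [NeZero p] (ζ : rootsOfUnity p ℂ)
    (φ : Additive ↥Γ →+ ZMod p) : ↥Γ →* rootsOfUnity p ℂ :=
  MonoidHom.toAdditive.symm ((zetaHom p ζ).comp φ)

lemma charOfHomG_apply' (p : ℕ) [NeZero p] (ζ : rootsOfUnity p ℂ)
    (φ : Additive ↥Γ →+ ZMod p) (γ : ↥Γ) :
    charOfHomG p ζ φ γ = Additive.toMul (zetaHom p ζ (φ (Additive.ofMul γ))) := rfl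

lemma charOfHomG_apply (p : ℕ) [NeZero p] (ζ : rootsOfUnity p ℂ)
    (φ : Additive ↥Γ →+ ZMod p) (γ : ↥Γ) (n : ℤ)
    (hn : (n : ZMod p) = φ (Additive.ofMul γ)) : charOfHomG p ζ φ γ = ζ ^ n := by
  rw [charOfHomG_apply', ← hn, zetaHom_intCast]
  rfl

lemma charOfHomG_eq_one_of (p : ℕ) [NeZero p] (ζ : rootsOfUnity p ℂ)
    (φ : Additive ↥Γ →+ ZMod p) (γ : ↥Γ)
    (h : φ (Additive.ofMul γ) = 0) : charOfHomG p ζ φ γ = 1 := by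
  rw [charOfHomG_apply p ζ φ γ 0 (by rw [h]; simp)]
  simp

/-- a parabolic `ZMod p`-valued homomorphism (prelude `IsParabolicHom`) gives a parabolic
character. -/
lemma isParabolicCharG_charOfHomG (p : ℕ) [NeZero p] (ζ : rootsOfUnity p ℂ)
    (φ : Additive ↥Γ →+ ZMod p)
    (hφ : ModularCurve.Period.IsParabolicHom Γ φ) :
    IsParabolicCharG Γ (ofRootsG p (charOfHomG p ζ φ)) :=
  ofRootsG_isParabolicCharG p _ fun γ hγ => charOfHomG_eq_one_of p ζ φ γ (hφ γ hγ)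

end wrappers

/-! ### the bridge to the Kummer core -/

section kum

variable {Γ : Subgroup SL(2, ℤ)} {N : ℕ} (p : ℕ) [NeZero p]

/-- the character `γ ↦ ζ ^ φ(γ)` with values in `ℂˣ`. -/
def chiPhiG (ζ : rootsOfUnity p ℂ) (φ : Additive ↥Γ →+ ZMod p) : ↥Γ →* ℂˣ :=
  ofRootsG p (charOfHomG p ζ φ)

lemma chiPhiG_unit (ζ : rootsOfUnity p ℂ) (φ : Additive ↥Γ →+ ZMod p)
    (γ : ↥Γ) : ‖((chiPhiG p ζ φ γ : ℂˣ) : ℂ)‖ = 1 :=
  ofRootsG_unit p _ γ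

lemma chiPhiG_pow (ζ : rootsOfUnity p ℂ) (φ : Additive ↥Γ →+ ZMod p)
    (γ : ↥Γ) : chiPhiG p ζ φ γ ^ p = 1 :=
  ofRootsG_pow p _ γ

lemma isParabolicCharG_chiPhiG (ζ : rootsOfUnity p ℂ) (φ : Additive ↥Γ →+ ZMod p)
    (hφ : ModularCurve.Period.IsParabolicHom Γ φ) : IsParabolicCharG Γ (chiPhiG p ζ φ) :=
  isParabolicCharG_charOfHomG p ζ φ hφ

/-- the value of the character in the `zmodPow` form of `KumCore`. -/
lemma chiPhiG_apply (ζ : rootsOfUnity p ℂ) (φ : Additive ↥Γ →+ ZMod p) (γ : ↥Γ) :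
    ((chiPhiG p ζ φ γ : ℂˣ) : ℂ) =
      Fermat.Agent.GJ.HeckeMer.zmodPow (((ζ : ℂˣ) : ℂ)) (φ (Additive.ofMul γ)) := by
  have h1 : charOfHomG p ζ φ γ = ζ ^ (((φ (Additive.ofMul γ)).val : ℕ) : ℤ) :=
    charOfHomG_apply p ζ φ γ _ (by
      rw [Int.cast_natCast, ZMod.natCast_zmod_val])
  unfold chiPhiG Fermat.Agent.GJ.HeckeMer.zmodPow
  rw [ofRootsG_apply, h1, zpow_natCast]
  simp

/-- the twisted Eisenstein ratio attached to `(ζ, φ)`. -/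
def hPhiG (ζ : rootsOfUnity p ℂ) (φ : Additive ↥Γ →+ ZMod p) {k : ℤ} (hk : 3 ≤ k) : Mer :=
  hChiG (χ := chiPhiG p ζ φ) (chiPhiG_unit p ζ φ) hk

theorem hPhiG_ne_zero (hΓ : LevelHyp Γ N) (ζ : rootsOfUnity p ℂ) (φ : Additive ↥Γ →+ ZMod p)
    (hφ : ModularCurve.Period.IsParabolicHom Γ φ) {k : ℤ} (hk : 3 ≤ k) :
    hPhiG p ζ φ hk ≠ 0 :=
  hChiG_ne_zero hΓ (isParabolicCharG_chiPhiG p ζ φ hφ) _ hk

/-- **(B1)** `h_φ` has multiplier `ζ^φ` in the sense of `KumCoreG`. -/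
theorem hasMultG_hPhiG (hΓ : LevelHyp Γ N) (ζ : rootsOfUnity p ℂ) (φ : Additive ↥Γ →+ ZMod p)
    (hφ : ModularCurve.Period.IsParabolicHom Γ φ) {k : ℤ} (hk : 3 ≤ k) :
    HasMultG Γ (((ζ : ℂˣ) : ℂ)) φ (hPhiG p ζ φ hk) := by
  intro γ
  unfold hPhiG
  rw [compM_hChiG hΓ (isParabolicCharG_chiPhiG p ζ φ hφ) _ hk γ, chiPhiG_apply]

/-- `h_φ ^ p` is `Γ`-invariant. -/
theorem compM_hPhiG_pow (hΓ : LevelHyp Γ N) (ζ : rootsOfUnity p ℂ) (φ : Additive ↥Γ →+ ZMod p)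
    (hφ : ModularCurve.Period.IsParabolicHom Γ φ) {k : ℤ} (hk : 3 ≤ k) (γ : ↥Γ) :
    compM (γ : SL(2, ℤ)) (hPhiG p ζ φ hk ^ p) = hPhiG p ζ φ hk ^ p :=
  compM_hChiG_pow hΓ (isParabolicCharG_chiPhiG p ζ φ hφ) _ hk p (chiPhiG_pow p ζ φ) γ

/-- a Kummer datum as soon as `h_φ ^ p` is realised by an element `u` of the field `F`. -/
theorem isKumDatumG_hPhiG {F : Type*} [Field F] (real : F →+* Mer) (hΓ : LevelHyp Γ N)
    (ζ : rootsOfUnity p ℂ) (φ : Additive ↥Γ →+ ZMod p)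
    (hφ : ModularCurve.Period.IsParabolicHom Γ φ) {k : ℤ} (hk : 3 ≤ k)
    (u : F) (hu : real u = hPhiG p ζ φ hk ^ p) :
    IsKumDatumG Γ real (((ζ : ℂˣ) : ℂ)) φ (hPhiG p ζ φ hk) u :=
  ⟨hPhiG_ne_zero p hΓ ζ φ hφ hk, hasMultG_hPhiG p hΓ ζ φ hφ hk, hu⟩

end kum

end

end Fermat.Agent.DS.P3.TwEisG
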