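/-
GATE-N / S48 J1-port, P3 (EIG twin), leaf S48-P3-EXC, field layer (helper94): quotients of
holomorphic functions of equal weight on `Γ` with bounded slash translates lie in the image of a
"function field of `Γ`" `real : F →+* Mer`, GIVEN the field generation property `FieldGenHol Γ N real`
(for `Γ₀(N)` this is helper41's theorem `GJ/J2/Dict/FieldGen.exists_realizeC_eq_hol`; for
`Γ₁(M)` it is a deliverable of P1 of the J1 port).  Consequence: **(ExC) for `Γ`** — every parabolic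
homomorphism `φ : Γ → ℤ/p` has a Kummer datum `(h_φ, u)`.
Γ-generic twin of `GJ/J2/TwistedEisField.lean` + `GJ/J2/ExC.lean`.
-/
import Fermat.Agent.DS.P3.TwEisG.Ratio
import Fermat.Agent.GJ.J2.TwistedEisField

set_option autoImplicit false
set_option linter.unusedSectionVars false

open Complex UpperHalfPlane Set Filter Topology Matrix ModularForm
  CongruenceSubgroup ModularGroup
open scoped MatrixGroups Manifold
open Fermat.Agent.S24_helper82 Fermat.Agent.GJ.Dict.FieldGen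

namespace Fermat.Agent.DS.P3.TwEisG

open Fermat.Agent.GJ.TwEis (denHol denHol_ne_zero slashHol coe_slashHol
  compSL_eq_denHol_mul_slashHol slashHol_ne_zero pow_slash isBoundedAtImInfty_pow
  denHol_zero denHol_add denHol_neg_mul DeltaInvHol compSL_DeltaInvHol_pow
  isBoundedAtImInfty_qParam_div_discriminant)
open Fermat.Agent.DS.P3.KumCoreG

noncomputable section

local notation "Δ" => ModularForm.discriminant

local notation "𝕢" => Function.Periodic.qParam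

/-! ### holomorphic functions of weight `k` on `Γ`, bounded at all cusps -/

/-- `X` transforms with weight `k` under `Γ` and all its slash translates are bounded at `i∞`. -/
structure IsWtG (Γ : Subgroup SL(2, ℤ)) (k : ℤ) (X : Hol) : Prop where
  law : ∀ γ ∈ Γ, compSL γ X = denHol γ k * X
  bdd : ∀ g : SL(2, ℤ), IsBoundedAtImInfty ((X : ℍ → ℂ) ∣[k] g)

section isWt

variable {Γ : Subgroup SL(2, ℤ)}

lemma IsWtG.one : IsWtG Γ 0 (1 : Hol) where
  law γ _ := by rw [denHol_zero, map_one, mul_one]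
  bdd g := by
    have h1 : (((1 : Hol) : ℍ → ℂ) ∣[(0 : ℤ)] g) = (1 : ℍ → ℂ) := is_invariant_one g
    rw [h1]
    exact Filter.const_boundedAtFilter _ (1 : ℂ)

lemma IsWtG.mul {k l : ℤ} {X Y : Hol} (hX : IsWtG Γ k X) (hY : IsWtG Γ l Y) :
    IsWtG Γ (k + l) (X * Y) where
  law γ hγ := by
    rw [map_mul, hX.law γ hγ, hY.law γ hγ, denHol_add]
    ring
  bdd g := by
    have h1 : (((X * Y : Hol) : ℍ → ℂ) ∣[k + l] g) =
        ((X : ℍ → ℂ) ∣[k] g) * ((Y : ℍ → ℂ) ∣[l] g) := mul_slash_SL2 k l g _ _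
    rw [h1]
    exact (hX.bdd g).mul (hY.bdd g)

lemma IsWtG.pow {k : ℤ} {X : Hol} (hX : IsWtG Γ k X) (n : ℕ) :
    IsWtG Γ ((n : ℤ) * k) (X ^ n) := by
  induction n with
  | zero =>
    simp only [Nat.cast_zero, zero_mul, pow_zero]
    exact IsWtG.one
  | succ n ih =>
    have h1 : ((n + 1 : ℕ) : ℤ) * k = (n : ℤ) * k + k := by push_cast; ring
    rw [h1, pow_succ]
    exact ih.mul hX

lemma IsWtG.congr_weight {k l : ℤ} {X : Hol} (hX : IsWtG Γ k X) (h : k = l) : IsWtG Γ l X :=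
  h ▸ hX

lemma IsWtG.mono {Γ' : Subgroup SL(2, ℤ)} (hle : Γ' ≤ Γ) {k : ℤ} {X : Hol}
    (hX : IsWtG Γ k X) : IsWtG Γ' k X :=
  ⟨fun γ hγ => hX.law γ (hle hγ), hX.bdd⟩

/-! ### weight `12 n` divided by `Δ ^ n` -/

/-- a holomorphic function of weight `12 n` divided by `Δ ^ n` is `Γ`-invariant. -/
lemma compSL_mul_DeltaInv_powG {n : ℕ} {X : Hol} (hX : IsWtG Γ (12 * (n : ℤ)) X) (γ : SL(2, ℤ))
    (hγ : γ ∈ Γ) : compSL γ (X * DeltaInvHol ^ n) = X * DeltaInvHol ^ n := by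
  rw [map_mul, hX.law γ hγ, compSL_DeltaInvHol_pow]
  have h1 := denHol_neg_mul γ (12 * (n : ℤ))
  calc denHol γ (12 * (n : ℤ)) * X * (denHol γ (-(12 * (n : ℤ))) * DeltaInvHol ^ n)
      = (denHol γ (-(12 * (n : ℤ))) * denHol γ (12 * (n : ℤ))) * (X * DeltaInvHol ^ n) := by ring
    _ = X * DeltaInvHol ^ n := by rw [h1, one_mul]

/-- a holomorphic function of weight `12 n`, bounded at all cusps, divided by `Δ ^ n`, has
moderate growth (in `q_N`, any `N ≥ 1`) at every cusp. -/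
lemma moderateGrowth_mul_DeltaInv_powG (N : ℕ) [NeZero N] {n : ℕ} {X : Hol}
    (hX : IsWtG Γ (12 * (n : ℤ)) X) :
    ModerateGrowth N ((X * DeltaInvHol ^ n : Hol) : ℍ → ℂ) := by
  intro g
  refine ⟨N * n, ?_⟩
  -- the translate is `(X ∣ g) * Δ⁻¹ ^ n`
  have h1 : compSL g (X * DeltaInvHol ^ n) =
      slashHol X (12 * (n : ℤ)) g * DeltaInvHol ^ n := by
    rw [map_mul, compSL_eq_denHol_mul_slashHol X (12 * (n : ℤ)) g, compSL_DeltaInvHol_pow]
    have h2 := denHol_neg_mul g (12 * (n : ℤ))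
    calc denHol g (12 * (n : ℤ)) * slashHol X (12 * (n : ℤ)) g *
          (denHol g (-(12 * (n : ℤ))) * DeltaInvHol ^ n)
        = (denHol g (-(12 * (n : ℤ))) * denHol g (12 * (n : ℤ))) *
            (slashHol X (12 * (n : ℤ)) g * DeltaInvHol ^ n) := by ring
      _ = slashHol X (12 * (n : ℤ)) g * DeltaInvHol ^ n := by rw [h2, one_mul]
  have h3 : (fun z : ℍ => 𝕢 (N : ℝ) (z : ℂ) ^ (N * n) *
      ((X * DeltaInvHol ^ n : Hol) : ℍ → ℂ) (g • z)) =
      fun z : ℍ => ((X : ℍ → ℂ) ∣[12 * (n : ℤ)] g) z * (𝕢 1 (z : ℂ) * (Δ z)⁻¹) ^ n := by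
    funext z
    have h4 : ((X * DeltaInvHol ^ n : Hol) : ℍ → ℂ) (g • z) =
        ((slashHol X (12 * (n : ℤ)) g * DeltaInvHol ^ n : Hol) : ℍ → ℂ) z := by
      rw [← h1]
      rfl
    have h5 : ((slashHol X (12 * (n : ℤ)) g * DeltaInvHol ^ n : Hol) : ℍ → ℂ) z =
        ((X : ℍ → ℂ) ∣[12 * (n : ℤ)] g) z * ((Δ z)⁻¹) ^ n := rfl
    have h6 : 𝕢 (N : ℝ) (z : ℂ) ^ (N * n) = 𝕢 1 (z : ℂ) ^ n := by
      rw [pow_mul]
      congr 1
      have := Fermat.Agent.S28.qParam_mul_natCast_pow 1 N (NeZero.ne N) (z : ℂ)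
      rwa [one_mul] at this
    rw [h4, h5, h6, mul_pow]
    ring
  rw [h3]
  exact (hX.bdd g).mul (isBoundedAtImInfty_pow isBoundedAtImInfty_qParam_div_discriminant n)

end isWt

/-! ### the field generation hypothesis -/

/-- **Field generation for `Γ` at level `N`** (a P1 deliverable for `Γ₁(M)`): every `Γ`-invariant
holomorphic function on `ℍ` with moderate growth (in `q_N`) at all cusps lies in the image of
`real : F →+* Mer`. -/
def FieldGenHol (Γ : Subgroup SL(2, ℤ)) (N : ℕ) {F : Type*} [Field F] (real : F →+* Mer) : Prop :=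
  ∀ H : Hol, (∀ γ ∈ Γ, compSL γ H = H) → ModerateGrowth N (H : ℍ → ℂ) →
    ∃ f : F, real f = algebraMap Hol Mer H

/-- the `Γ₀(N)` instance is helper41's theorem -/
theorem fieldGenHol_Gamma0 (N : ℕ) [NeZero N] :
    FieldGenHol (Gamma0 N) N (Fermat.Agent.GJ.Dict.realizeC N : Fermat.Agent.GJ.Dict.FC N →+* Mer) :=
  fun H hinv hgr => exists_realizeC_eq_hol N H hinv hgr

section field

variable {Γ : Subgroup SL(2, ℤ)} {N : ℕ} [NeZero N] {F : Type*} [Field F] {real : F →+* Mer}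

/-- **(F6, `Hol` form)** a quotient of two holomorphic functions of the same weight `k ≥ 0` on
`Γ`, bounded at all cusps, is in the image of the function field. -/
theorem exists_real_eq_div_of_isWtG (hreal : FieldGenHol Γ N real) {k : ℕ} {A B : Hol}
    (hA : IsWtG Γ (k : ℤ) A) (hB : IsWtG Γ (k : ℤ) B) (hB0 : B ≠ 0) :
    ∃ f : F, real f = algebraMap Hol Mer A / algebraMap Hol Mer B := by
  have hw : (k : ℤ) + ((11 : ℕ) : ℤ) * (k : ℤ) = 12 * (k : ℤ) := by push_cast; ring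
  have hw' : ((12 : ℕ) : ℤ) * (k : ℤ) = 12 * (k : ℤ) := by push_cast; ring
  have hX : IsWtG Γ (12 * (k : ℤ)) (A * B ^ 11) := (hA.mul (hB.pow 11)).congr_weight hw
  have hY : IsWtG Γ (12 * (k : ℤ)) (B ^ 12) := (hB.pow 12).congr_weight hw'
  have hD : DeltaInvHol ≠ 0 := by
    intro h
    have h1 := congrFun (congrArg (fun f : Hol => (f : ℍ → ℂ)) h) UpperHalfPlane.I
    exact inv_ne_zero (discriminant_ne_zero _) h1
  have hQ : B ^ 12 * DeltaInvHol ^ k ≠ 0 := mul_ne_zero (pow_ne_zero _ hB0) (pow_ne_zero _ hD)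
  obtain ⟨a, ha⟩ := hreal (A * B ^ 11 * DeltaInvHol ^ k)
    (fun γ hγ => compSL_mul_DeltaInv_powG hX γ hγ) (moderateGrowth_mul_DeltaInv_powG N hX)
  obtain ⟨b, hb⟩ := hreal (B ^ 12 * DeltaInvHol ^ k)
    (fun γ hγ => compSL_mul_DeltaInv_powG hY γ hγ) (moderateGrowth_mul_DeltaInv_powG N hY)
  refine ⟨a / b, ?_⟩
  have hB' : algebraMap Hol Mer B ≠ 0 := algebraMap_ne_zero hB0
  have hD' : algebraMap Hol Mer DeltaInvHol ≠ 0 := algebraMap_ne_zero hD
  rw [map_div₀, ha, hb]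
  simp only [map_mul, map_pow]
  field_simp

end field

/-! ### the twisted Eisenstein series -/

section character

variable {Γ : Subgroup SL(2, ℤ)} {N : ℕ} {χ : ↥Γ →* ℂˣ}

/-- `(E_{k,χ})^p` has weight `p k` on `Γ` when `χ^p = 1`, and is bounded at all cusps. -/
lemma isWtG_EchiHolG_pow (hpar : IsParabolicCharG Γ χ) (hunit : ∀ γ, ‖((χ γ : ℂˣ) : ℂ)‖ = 1)
    {k : ℤ} (hk : 3 ≤ k) (p : ℕ) (hχp : ∀ γ, χ γ ^ p = 1) :
    IsWtG Γ ((p : ℤ) * k) (EchiHolG hunit hk ^ p) where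
  law γ hγ := by
    have h1 := compSL_EchiHolG hpar hunit hk ⟨γ, hγ⟩
    have h2 : (((χ ⟨γ, hγ⟩ : ℂˣ) : ℂ)) ^ p = 1 := by
      have := congrArg (fun u : ℂˣ => (u : ℂ)) (hχp ⟨γ, hγ⟩)
      simpa using this
    have h3 : denHol γ ((p : ℤ) * k) = denHol γ k ^ p := by
      apply Subtype.ext
      funext z
      show denom (γ : GL (Fin 2) ℝ) z ^ ((p : ℤ) * k) = (denom (γ : GL (Fin 2) ℝ) z ^ k) ^ p
      rw [mul_comm, _root_.zpow_mul, zpow_natCast]
    rw [map_pow, h1, mul_pow, mul_pow, ← map_pow, h2, map_one, one_mul, h3]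
  bdd g := by
    have h1 : (((EchiHolG hunit hk ^ p : Hol) : ℍ → ℂ) ∣[(p : ℤ) * k] g) =
        ((EchiG Γ χ k) ∣[k] g) ^ p := pow_slash (EchiG Γ χ k) k p g
    rw [h1]
    exact isBoundedAtImInfty_pow (isBoundedAtImInfty_EchiG_slash hunit hk g) p

/-- **(B2)** `h_χ ^ p` lies in the image of the function field of `Γ`. -/
theorem exists_real_eq_hChiG_pow [NeZero N] {F : Type*} [Field F] {real : F →+* Mer}
    (hΓ : LevelHyp Γ N) (hreal : FieldGenHol Γ N real) (hpar : IsParabolicCharG Γ χ)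
    (hunit : ∀ γ, ‖((χ γ : ℂˣ) : ℂ)‖ = 1) {k : ℤ} (hk : 3 ≤ k) (p : ℕ)
    (hχp : ∀ γ, χ γ ^ p = 1) :
    ∃ u : F, real u = hChiG hunit hk ^ p := by
  have hkk : ((p * k.toNat : ℕ) : ℤ) = (p : ℤ) * k := by
    push_cast
    rw [Int.toNat_of_nonneg (by omega)]
  have hA := (isWtG_EchiHolG_pow hpar hunit hk p hχp).congr_weight hkk.symm
  have hB := (isWtG_EchiHolG_pow (χ := (1 : ↥Γ →* ℂˣ)) isParabolicCharG_one hunitG_one hk p
    (fun _ => by simp)).congr_weight hkk.symm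
  have hB0 : EchiHolG (χ := (1 : ↥Γ →* ℂˣ)) hunitG_one hk ^ p ≠ 0 :=
    pow_ne_zero _ (EchiHolG_ne_zero hΓ isParabolicCharG_one hunitG_one hk)
  obtain ⟨u, hu⟩ := exists_real_eq_div_of_isWtG hreal hA hB hB0
  refine ⟨u, ?_⟩
  rw [hu, map_pow, map_pow, ← div_pow]
  rfl

end character

section kummer

variable {Γ : Subgroup SL(2, ℤ)} {N : ℕ} [NeZero N] (p : ℕ) [NeZero p]
  {F : Type*} [Field F] {real : F →+* Mer}

/-- **(B2')** for every parabolic `φ : Γ → ℤ/p` and every `p`-th root of unity `ζ` there is a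
Kummer datum `(h_φ, u)` over the function field of `Γ`. -/
theorem exists_isKumDatumG_hPhiG (hΓ : LevelHyp Γ N) (hreal : FieldGenHol Γ N real)
    (ζ : rootsOfUnity p ℂ) (φ : Additive ↥Γ →+ ZMod p)
    (hφ : ModularCurve.Period.IsParabolicHom Γ φ) {k : ℤ} (hk : 3 ≤ k) :
    ∃ u : F, IsKumDatumG Γ real (((ζ : ℂˣ) : ℂ)) φ (hPhiG p ζ φ hk) u := by
  obtain ⟨u, hu⟩ := exists_real_eq_hChiG_pow hΓ hreal (isParabolicCharG_chiPhiG p ζ φ hφ)
    (chiPhiG_unit p ζ φ) hk p (chiPhiG_pow p ζ φ)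
  exact ⟨u, isKumDatumG_hPhiG p real hΓ ζ φ hφ hk u hu⟩

/-- a complex number with `ζ ^ p = 1` as an element of `rootsOfUnity p ℂ`. -/
def rootOfPowG (ζ : ℂ) (hζ : ζ ^ p = 1) : rootsOfUnity p ℂ :=
  ⟨Units.mk0 ζ (fun h => by
      rw [h, zero_pow (NeZero.ne p)] at hζ
      exact zero_ne_one hζ),
    by
      rw [_root_.mem_rootsOfUnity]
      apply Units.ext
      simpa using hζ⟩

lemma coe_rootOfPowG (ζ : ℂ) (hζ : ζ ^ p = 1) :
    (((rootOfPowG p ζ hζ : rootsOfUnity p ℂ) : ℂˣ) : ℂ) = ζ := rfl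

/-- **(ExC) for `Γ`**: existence of Kummer data for every parabolic homomorphism; any `ζ` with
`ζ ^ p = 1`, any `p ≠ 0`. -/
theorem exists_isKumDatumG (hΓ : LevelHyp Γ N) (hreal : FieldGenHol Γ N real) {ζ : ℂ}
    (hζ : ζ ^ p = 1) (φ : Additive ↥Γ →+ ZMod p)
    (hφ : ModularCurve.Period.IsParabolicHom Γ φ) :
    ∃ (h : Mer) (u : F), IsKumDatumG Γ real ζ φ h u := by
  obtain ⟨u, hu⟩ := exists_isKumDatumG_hPhiG p hΓ hreal (rootOfPowG p ζ hζ) φ hφ (k := 3)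
    le_rfl
  exact ⟨_, u, hu⟩

/-- **(ExC) for `Γ₁(M)`**, `M ≥ 3`, in hypothesis form over P1's field generation. -/
theorem exists_isKumDatumG_Gamma1 {M : ℕ} [NeZero M] (hM : 3 ≤ M)
    (hreal : FieldGenHol (Gamma1 M) M real) {ζ : ℂ} (hζ : ζ ^ p = 1)
    (φ : Additive ↥(Gamma1 M) →+ ZMod p)
    (hφ : ModularCurve.Period.IsParabolicHom (Gamma1 M) φ) :
    ∃ (h : Mer) (u : F), IsKumDatumG (Gamma1 M) real ζ φ h u :=
  exists_isKumDatumG p (levelHyp_Gamma1 M hM) hreal hζ φ hφ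

end kummer

end

end Fermat.Agent.DS.P3.TwEisG
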